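import Mathlib.NumberTheory.ModularForms.LevelOne.DimensionFormula
import Mathlib.RingTheory.LaurentSeries
import Fermat.Agent.S20.Defs
import Fermat.Agent.LevelOne_helper29.Ramanujan

/-!
# T20, slice ORDER of piece C2b: the order at `i∞` of `C E₄^α E₆^β Δ^γ`

If `D = C E₄^α E₆^β Δ^γ` (with `γ : ℤ`) and `Δ^m D` is bounded at `i∞`, then `γ + m ≥ 0`, the
`q`-expansion of `Δ^m D` is `C 𝐄₄^α 𝐄₆^β 𝚫^(γ+m)` and its order is `γ + m`.
-/

set_option autoImplicit false

open UpperHalfPlane hiding I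
open ModularForm Filter Topology Complex EisensteinSeries
open scoped MatrixGroups ModularForm Manifold

namespace Fermat.Agent.S20_helper29

open Fermat.Agent.S20 (dpow dpow_apply)
open Fermat.Agent.LevelOne_helper29 (tendsto_E4_atImInfty tendsto_E6_atImInfty)

local notation "Δ" => ModularForm.discriminant

/-! ### Functions with an analytic cusp function -/

/-- `f` has a cusp function (for the period `1`) which is analytic at `0`. -/
def Nice (f : ℍ → ℂ) : Prop := AnalyticAt ℂ (cuspFunction 1 f) 0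

lemma cuspFunction_one_eq : cuspFunction 1 (1 : ℍ → ℂ) = 1 := by
  ext q
  rcases eq_or_ne q 0 with rfl | hq
  · simpa [cuspFunction, Function.Periodic.cuspFunction] using! tendsto_const_nhds.limUnder_eq
  · simp [cuspFunction, Function.Periodic.cuspFunction, hq]

lemma nice_one : Nice (1 : ℍ → ℂ) := by
  unfold Nice
  rw [cuspFunction_one_eq]
  exact analyticAt_const

lemma Nice.mul {f g : ℍ → ℂ} (hf : Nice f) (hg : Nice g) : Nice (f * g) := by
  unfold Nice at *
  rw [cuspFunction_mul hf.continuousAt hg.continuousAt]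
  exact hf.mul hg

lemma Nice.smul {f : ℍ → ℂ} (hf : Nice f) (c : ℂ) : Nice (c • f) := by
  unfold Nice at *
  rw [cuspFunction_smul hf.continuousAt]
  exact hf.const_smul

lemma Nice.pow {f : ℍ → ℂ} (hf : Nice f) (n : ℕ) : Nice (f ^ n) := by
  induction n with
  | zero => rw [pow_zero]; exact nice_one
  | succ n ih => rw [pow_succ]; exact ih.mul hf

lemma qExpansion_pow_of_nice {f : ℍ → ℂ} (hf : Nice f) (n : ℕ) :
    qExpansion 1 (f ^ n) = qExpansion 1 f ^ n := by
  induction n with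
  | zero => rw [pow_zero, pow_zero]; exact qExpansion_one 1
  | succ n ih => rw [pow_succ, pow_succ, qExpansion_mul (hf.pow n) hf, ih]

lemma nice_E4 : Nice (E₄ : ℍ → ℂ) :=
  ModularFormClass.analyticAt_cuspFunction_zero E₄ one_pos one_mem_strictPeriods_SL

lemma nice_E6 : Nice (E₆ : ℍ → ℂ) :=
  ModularFormClass.analyticAt_cuspFunction_zero E₆ one_pos one_mem_strictPeriods_SL

lemma nice_discriminant : Nice (Δ : ℍ → ℂ) :=
  ModularFormClass.analyticAt_cuspFunction_zero CuspForm.discriminant one_pos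
    one_mem_strictPeriods_SL

/-! ### The shape `C E₄^α E₆^β Δ^t` -/

/-- The function `C E₄^α E₆^β Δ^t` for natural exponents. -/
noncomputable def shapeFun (C : ℂ) (α β t : ℕ) : ℍ → ℂ :=
  C • ((E₄ : ℍ → ℂ) ^ α * (E₆ : ℍ → ℂ) ^ β * (Δ : ℍ → ℂ) ^ t)

lemma shapeFun_apply (C : ℂ) (α β t : ℕ) (z : ℍ) :
    shapeFun C α β t z = C * E₄ z ^ α * E₆ z ^ β * Δ z ^ t := by
  simp [shapeFun, mul_assoc]

lemma qExpansion_shapeFun (C : ℂ) (α β t : ℕ) :
    qExpansion 1 (shapeFun C α β t) =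
      C • (qExpansion 1 E₄ ^ α * qExpansion 1 E₆ ^ β * qExpansion 1 Δ ^ t) := by
  unfold shapeFun
  rw [qExpansion_smul (((nice_E4.pow α).mul (nice_E6.pow β)).mul (nice_discriminant.pow t)),
    qExpansion_mul ((nice_E4.pow α).mul (nice_E6.pow β)) (nice_discriminant.pow t),
    qExpansion_mul (nice_E4.pow α) (nice_E6.pow β), qExpansion_pow_of_nice nice_E4,
    qExpansion_pow_of_nice nice_E6, qExpansion_pow_of_nice nice_discriminant]

lemma constantCoeff_qExpansion_E4 : PowerSeries.constantCoeff (qExpansion 1 E₄) = 1 := by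
  have := E_qExpansion_coeff_zero (k := 4) (by norm_num) ⟨2, rfl⟩
  simpa using this

lemma constantCoeff_qExpansion_E6 : PowerSeries.constantCoeff (qExpansion 1 E₆) = 1 := by
  have := E_qExpansion_coeff_zero (k := 6) (by norm_num) ⟨3, rfl⟩
  simpa using this

lemma order_of_constantCoeff_ne_zero {P : PowerSeries ℂ} (h : PowerSeries.constantCoeff P ≠ 0) :
    P.order = 0 := by
  by_contra h0
  exact h (PowerSeries.order_ne_zero_iff_constCoeff_eq_zero.mp h0)

lemma order_qExpansion_E4 : (qExpansion 1 E₄).order = 0 :=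
  order_of_constantCoeff_ne_zero (by rw [constantCoeff_qExpansion_E4]; exact one_ne_zero)

lemma order_qExpansion_E6 : (qExpansion 1 E₆).order = 0 :=
  order_of_constantCoeff_ne_zero (by rw [constantCoeff_qExpansion_E6]; exact one_ne_zero)

lemma order_qExpansion_shapeFun {C : ℂ} (hC : C ≠ 0) (α β t : ℕ) :
    (qExpansion 1 (shapeFun C α β t)).order = t := by
  rw [qExpansion_shapeFun]
  have h1 : C • (qExpansion 1 E₄ ^ α * qExpansion 1 E₆ ^ β * qExpansion 1 Δ ^ t) =
      PowerSeries.C C * (qExpansion 1 E₄ ^ α * qExpansion 1 E₆ ^ β * qExpansion 1 Δ ^ t) := by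
    rw [PowerSeries.smul_eq_C_mul]
  have hCo : (PowerSeries.C C : PowerSeries ℂ).order = 0 :=
    order_of_constantCoeff_ne_zero (by simpa using hC)
  rw [h1, PowerSeries.order_mul, PowerSeries.order_mul, PowerSeries.order_mul,
    PowerSeries.order_pow, PowerSeries.order_pow, PowerSeries.order_pow, hCo, order_qExpansion_E4,
    order_qExpansion_E6, discriminant_qExpansion_order]
  simp

/-! ### Main statements -/

lemma tendsto_discriminant_atImInfty : Tendsto (fun z : ℍ => Δ z) atImInfty (𝓝 0) :=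
  discriminant_isZeroAtImInfty

/-- If `D = C E₄^α E₆^β Δ^γ` with `C ≠ 0` and `Δ^m D` is bounded at `i∞`, then `0 ≤ γ + m`. -/
theorem nonneg_of_shape {D : ℍ → ℂ} {m : ℕ} {C : ℂ} (hC : C ≠ 0) {α β : ℕ} {γ : ℤ}
    (hbd : IsBoundedAtImInfty (dpow m * D))
    (hshape : ∀ z : ℍ, D z = C * E₄ z ^ α * E₆ z ^ β * Δ z ^ γ) : 0 ≤ γ + m := by
  by_contra hneg
  push Not at hneg
  obtain ⟨s, hs⟩ : ∃ s : ℕ, (s : ℤ) = -(γ + m) := ⟨(-(γ + m)).toNat, by omega⟩
  have hs0 : 0 < s := by omega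
  -- `(Δ^m D) Δ^s = C E₄^α E₆^β`
  have hfun : ∀ z : ℍ, (dpow m * D) z * Δ z ^ s = C * E₄ z ^ α * E₆ z ^ β := by
    intro z
    have hΔ : Δ z ≠ 0 := discriminant_ne_zero z
    rw [Pi.mul_apply, dpow_apply, hshape z, ← zpow_natCast (Δ z) s, ← zpow_natCast (Δ z) m]
    have : Δ z ^ (m : ℤ) * (C * E₄ z ^ α * E₆ z ^ β * Δ z ^ γ) * Δ z ^ (s : ℤ) =
        C * E₄ z ^ α * E₆ z ^ β * (Δ z ^ (m : ℤ) * Δ z ^ γ * Δ z ^ (s : ℤ)) := by ring
    rw [this, ← zpow_add₀ hΔ, ← zpow_add₀ hΔ, hs]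
    have : (m : ℤ) + γ + -(γ + m) = 0 := by ring
    rw [this, zpow_zero, mul_one]
  have h1 : Tendsto (fun z : ℍ => (dpow m * D) z * Δ z ^ s) atImInfty (𝓝 0) := by
    have hz : Tendsto (fun z : ℍ => Δ z ^ s) atImInfty (𝓝 0) := by
      have := tendsto_discriminant_atImInfty.pow s
      rwa [zero_pow hs0.ne'] at this
    have hO : (fun z : ℍ => (dpow m * D) z * Δ z ^ s) =O[atImInfty]
        (fun z : ℍ => (1 : ℝ) * ‖Δ z ^ s‖) := by
      have hb : (dpow m * D) =O[atImInfty] (1 : ℍ → ℝ) := hbd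
      have hr : (fun z : ℍ => Δ z ^ s) =O[atImInfty] (fun z : ℍ => ‖Δ z ^ s‖) :=
        (Asymptotics.isBigO_refl _ _).norm_right
      exact hb.mul hr
    refine hO.trans_tendsto ?_
    have := hz.norm
    simpa using this
  have h2 : Tendsto (fun z : ℍ => (dpow m * D) z * Δ z ^ s) atImInfty (𝓝 C) := by
    have : Tendsto (fun z : ℍ => C * E₄ z ^ α * E₆ z ^ β) atImInfty (𝓝 (C * 1 ^ α * 1 ^ β)) :=
      (tendsto_const_nhds.mul (tendsto_E4_atImInfty.pow α)).mul (tendsto_E6_atImInfty.pow β)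
    simp only [one_pow, mul_one] at this
    exact this.congr fun z => (hfun z).symm
  exact hC (tendsto_nhds_unique h2 h1)

/-- If `D = C E₄^α E₆^β Δ^γ` and `0 ≤ γ + m` then `Δ^m D` is the function `shapeFun`. -/
theorem dpow_mul_eq_shapeFun {D : ℍ → ℂ} {m : ℕ} {C : ℂ} {α β : ℕ} {γ : ℤ}
    (hshape : ∀ z : ℍ, D z = C * E₄ z ^ α * E₆ z ^ β * Δ z ^ γ) (h0 : 0 ≤ γ + m) :
    dpow m * D = shapeFun C α β (γ + m).toNat := by
  ext z
  have hΔ : Δ z ≠ 0 := discriminant_ne_zero z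
  rw [Pi.mul_apply, dpow_apply, hshape z, shapeFun_apply, ← zpow_natCast (Δ z) m,
    ← zpow_natCast (Δ z) (γ + m).toNat, Int.toNat_of_nonneg h0, add_comm γ, zpow_add₀ hΔ]
  ring

/-- **Slice ORDER.** If `D = C E₄^α E₆^β Δ^γ` (`C ≠ 0`, `γ : ℤ`) and `Δ^m D` is bounded at `i∞`
then `0 ≤ γ + m`, the `q`-expansion of `Δ^m D` is `C 𝐄₄^α 𝐄₆^β 𝚫^(γ+m)`, of order `γ + m`. -/
theorem order_of_shape {D : ℍ → ℂ} {m : ℕ} {C : ℂ} (hC : C ≠ 0) {α β : ℕ} {γ : ℤ}
    (hbd : IsBoundedAtImInfty (dpow m * D))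
    (hshape : ∀ z : ℍ, D z = C * E₄ z ^ α * E₆ z ^ β * Δ z ^ γ) :
    0 ≤ γ + m ∧
    qExpansion 1 (dpow m * D) =
      C • (qExpansion 1 E₄ ^ α * qExpansion 1 E₆ ^ β * qExpansion 1 Δ ^ (γ + m).toNat) ∧
    (qExpansion 1 (dpow m * D)).order = ((γ + m).toNat : ℕ∞) := by
  have h0 := nonneg_of_shape hC hbd hshape
  have h1 := dpow_mul_eq_shapeFun hshape h0
  refine ⟨h0, ?_, ?_⟩
  · rw [h1, qExpansion_shapeFun]
  · rw [h1, order_qExpansion_shapeFun hC]

/-! ### Orders of power series viewed as Laurent series -/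

lemma coeff_coe_of_neg (P : PowerSeries ℂ) (n : ℤ) (hn : n < 0) :
    ((P : LaurentSeries ℂ)).coeff n = 0 := by
  show (HahnSeries.ofPowerSeries ℤ ℂ P).coeff n = 0
  rw [HahnSeries.ofPowerSeries_apply]
  apply HahnSeries.embDomain_of_notMem_range
  rintro ⟨k, hk⟩
  have hk' : (k : ℤ) = n := by simpa using hk
  omega

/-- The order of a nonzero power series, viewed as a Laurent series. -/
lemma order_coe_eq {P : PowerSeries ℂ} (hP : P ≠ 0) :
    ((P : LaurentSeries ℂ)).order = (P.order.toNat : ℤ) := by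
  have hne : ((P : LaurentSeries ℂ)) ≠ 0 := by
    intro h
    apply hP
    have : ((P : LaurentSeries ℂ)) = ((0 : PowerSeries ℂ) : LaurentSeries ℂ) := by simpa using h
    exact HahnSeries.ofPowerSeries_injective this
  apply le_antisymm
  · apply HahnSeries.order_le_of_coeff_ne_zero
    rw [LaurentSeries.coeff_coe_powerSeries]
    exact PowerSeries.coeff_order hP
  · have h1 : ((P : LaurentSeries ℂ)).coeff ((P : LaurentSeries ℂ)).order ≠ 0 := by
      rwa [Ne, HahnSeries.coeff_order_eq_zero]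
    rcases lt_or_ge ((P : LaurentSeries ℂ)).order 0 with hneg | hpos
    · exact absurd (coeff_coe_of_neg P _ hneg) h1
    · obtain ⟨k, hk⟩ := Int.eq_ofNat_of_zero_le hpos
      rw [hk] at h1 ⊢
      rw [LaurentSeries.coeff_coe_powerSeries] at h1
      have := PowerSeries.order_le k h1
      have h2 : P.order.toNat ≤ k := by
        have := ENat.toNat_le_toNat this (by simp)
        simpa using this
      exact_mod_cast h2

/-- **Order relation.** If moreover the `q`-expansion of `Δ^m D` is `b X^e P^2`, then `P ≠ 0` and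
`2 ord P + e = γ + m`. -/
theorem order_relation {D : ℍ → ℂ} {m : ℕ} {C : ℂ} (hC : C ≠ 0) {α β : ℕ} {γ : ℤ}
    (hbd : IsBoundedAtImInfty (dpow m * D))
    (hshape : ∀ z : ℍ, D z = C * E₄ z ^ α * E₆ z ^ β * Δ z ^ γ)
    {P : PowerSeries ℂ} {b : ℂ} {e : ℕ}
    (hq : qExpansion 1 (dpow m * D) = b • (PowerSeries.X ^ e * P ^ 2)) :
    P ≠ 0 ∧ 2 * ((P : LaurentSeries ℂ)).order + e = γ + m := by
  obtain ⟨h0, -, hord⟩ := order_of_shape hC hbd hshape
  rw [hq] at hord
  have hne : b • (PowerSeries.X ^ e * P ^ 2) ≠ 0 := by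
    intro h
    rw [h, PowerSeries.order_zero] at hord
    exact ENat.top_ne_natCast _ hord
  have hb : b ≠ 0 := by
    rintro rfl
    exact hne (zero_smul _ _)
  have hP : P ≠ 0 := by
    rintro rfl
    apply hne
    simp
  refine ⟨hP, ?_⟩
  have hbo : (PowerSeries.C b : PowerSeries ℂ).order = 0 :=
    order_of_constantCoeff_ne_zero (by simpa using hb)
  rw [PowerSeries.smul_eq_C_mul, PowerSeries.order_mul, PowerSeries.order_mul,
    PowerSeries.order_X_pow, PowerSeries.order_pow, hbo, zero_add] at hord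
  have hfin : P.order = (P.order.toNat : ℕ∞) :=
    (ENat.natCast_toNat (PowerSeries.order_eq_top.not.mpr hP)).symm
  rw [hfin] at hord
  have hnat : e + 2 * P.order.toNat = (γ + m).toNat := by
    have : ((e + 2 * P.order.toNat : ℕ) : ℕ∞) = ((γ + m).toNat : ℕ∞) := by
      rw [← hord]; push_cast; simp [two_mul]
    exact_mod_cast this
  rw [order_coe_eq hP]
  have h2 : ((γ + m).toNat : ℤ) = γ + m := Int.toNat_of_nonneg h0
  omega

/-! ### Scaling a matrix of power series by a power of `𝚫⁻¹` -/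

/-- The `q`-expansion of the discriminant as a Laurent series. -/
noncomputable def deltaLaurent : LaurentSeries ℂ :=
  ((qExpansion 1 Δ : PowerSeries ℂ) : LaurentSeries ℂ)

lemma qExpansion_discriminant_ne_zero : qExpansion 1 Δ ≠ 0 := by
  intro h
  have := discriminant_qExpansion_order
  rw [h, PowerSeries.order_zero] at this
  exact ENat.top_ne_one this

lemma deltaLaurent_ne_zero : deltaLaurent ≠ 0 := by
  intro h
  apply qExpansion_discriminant_ne_zero
  have : ((qExpansion 1 Δ : PowerSeries ℂ) : LaurentSeries ℂ) =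
      ((0 : PowerSeries ℂ) : LaurentSeries ℂ) := by simpa [deltaLaurent] using h
  exact HahnSeries.ofPowerSeries_injective this

lemma order_deltaLaurent : deltaLaurent.order = 1 := by
  unfold deltaLaurent
  rw [order_coe_eq qExpansion_discriminant_ne_zero, discriminant_qExpansion_order]
  rfl

lemma order_deltaLaurent_inv_pow (n : ℕ) : ((deltaLaurent⁻¹) ^ n).order = -(n : ℤ) := by
  have h1 : (deltaLaurent⁻¹).order = -1 := by
    have hmul : deltaLaurent * deltaLaurent⁻¹ = 1 := mul_inv_cancel₀ deltaLaurent_ne_zero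
    have h2 := HahnSeries.order_mul deltaLaurent_ne_zero (inv_ne_zero deltaLaurent_ne_zero)
    rw [hmul, HahnSeries.order_one, order_deltaLaurent] at h2
    omega
  rw [HahnSeries.order_pow, h1]
  simp

/-- The matrix `𝚫⁻ⁿ • P` over `ℂ((q))` for a matrix `P` of power series. -/
noncomputable def scaledMatrix {ι : Type*} (Pm : Matrix ι ι (PowerSeries ℂ)) (n : ℕ) :
    Matrix ι ι (LaurentSeries ℂ) :=
  Matrix.of fun r a => (deltaLaurent⁻¹) ^ n * ((Pm r a : PowerSeries ℂ) : LaurentSeries ℂ)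

lemma det_scaledMatrix {ι : Type*} [Fintype ι] [DecidableEq ι] (Pm : Matrix ι ι (PowerSeries ℂ))
    (n : ℕ) :
    (scaledMatrix Pm n).det =
      ((deltaLaurent⁻¹) ^ n) ^ Fintype.card ι * ((Pm.det : PowerSeries ℂ) : LaurentSeries ℂ) := by
  have h1 : scaledMatrix Pm n =
      ((deltaLaurent⁻¹) ^ n) • (HahnSeries.ofPowerSeries ℤ ℂ).mapMatrix Pm := by
    ext r a
    simp [scaledMatrix, Matrix.smul_apply]
  rw [h1, Matrix.det_smul, ← RingHom.map_det]

theorem order_det_scaledMatrix {ι : Type*} [Fintype ι] [DecidableEq ι]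
    (Pm : Matrix ι ι (PowerSeries ℂ)) (hP : Pm.det ≠ 0) (n : ℕ) :
    (scaledMatrix Pm n).det ≠ 0 ∧
      (scaledMatrix Pm n).det.order =
        ((Pm.det : PowerSeries ℂ) : LaurentSeries ℂ).order - (n : ℤ) * Fintype.card ι := by
  have hne : ((Pm.det : PowerSeries ℂ) : LaurentSeries ℂ) ≠ 0 := by
    intro h
    apply hP
    have : ((Pm.det : PowerSeries ℂ) : LaurentSeries ℂ) = ((0 : PowerSeries ℂ) : LaurentSeries ℂ) := by
      simpa using h
    exact HahnSeries.ofPowerSeries_injective this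
  have hd : ((deltaLaurent⁻¹) ^ n) ^ Fintype.card ι ≠ 0 :=
    pow_ne_zero _ (pow_ne_zero _ (inv_ne_zero deltaLaurent_ne_zero))
  rw [det_scaledMatrix]
  refine ⟨mul_ne_zero hd hne, ?_⟩
  rw [HahnSeries.order_mul hd hne, HahnSeries.order_pow, order_deltaLaurent_inv_pow]
  simp only [nsmul_eq_mul]
  ring

/-- **Final bookkeeping for the cusp matrix.** With `D = detFun ^ 2`, `m = 2 n μ`, `μ = |ι|`,
`e = μ - ν∞` and `P` the matrix of Puiseux components, this is the relation
`2 ord (det G) + (μ - ν∞) = γ` for `G = 𝚫⁻ⁿ • P`. -/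
theorem order_det_of_shape {ι : Type*} [Fintype ι] [DecidableEq ι]
    (Pm : Matrix ι ι (PowerSeries ℂ)) (n : ℕ) {D : ℍ → ℂ} {C : ℂ} (hC : C ≠ 0) {α β : ℕ} {γ : ℤ}
    (hbd : IsBoundedAtImInfty (dpow (2 * (n * Fintype.card ι)) * D))
    (hshape : ∀ z : ℍ, D z = C * E₄ z ^ α * E₆ z ^ β * Δ z ^ γ) {b : ℂ} {e : ℕ}
    (hq : qExpansion 1 (dpow (2 * (n * Fintype.card ι)) * D) =
      b • (PowerSeries.X ^ e * Pm.det ^ 2)) :
    (scaledMatrix Pm n).det ≠ 0 ∧ 2 * (scaledMatrix Pm n).det.order + e = γ := by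
  obtain ⟨hP, hrel⟩ := order_relation hC hbd hshape hq
  obtain ⟨h1, h2⟩ := order_det_scaledMatrix Pm hP n
  refine ⟨h1, ?_⟩
  rw [h2]
  push_cast at hrel
  linarith

end Fermat.Agent.S20_helper29
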